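import Mathlib

/-!
# S16 / UB / Lemma A: the pure arithmetic core (owner helper14)

Integer sequences `a` (`≡ 1 mod M`: `a 0 ≡ 1`, `a k ≡ 0` for `k ≥ 1`) and `τ` (`τ 0 = 0`,
`τ 1 = 1`) satisfying the trace identities
`p¹² ∑_{i+j=N} a_i τ'_j = ∑_{i+j=pN} a_{pi} τ_j` (`τ'_j = τ_{j/p}` if `p ∣ j`, else `0`) and
`τ(p²) = τ(p)² - p¹¹`; then `M ∣ p¹¹ (p + 1)`, hence `M ∣ p + 1` if `M` is prime to `p`.
-/

set_option autoImplicit false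

namespace Fermat.Agent.S16.UB.LemmaAAux

/-- `∑_{i+j=n} a_{pi} τ_j ≡ τ_n (mod M)`. -/
theorem sum_antidiagonal_modEq {p M : ℕ} (hp : 0 < p) (a τ : ℕ → ℤ)
    (ha0 : (M : ℤ) ∣ a 0 - 1) (hak : ∀ k : ℕ, 1 ≤ k → (M : ℤ) ∣ a k) (n : ℕ) :
    (M : ℤ) ∣ (∑ x ∈ Finset.HasAntidiagonal.antidiagonal n, a (p * x.1) * τ x.2) - τ n := by
  rw [Finset.Nat.sum_antidiagonal_eq_sum_range_succ (fun i j => a (p * i) * τ j) n,
    Finset.sum_range_succ']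
  simp only [Nat.mul_zero, Nat.sub_zero]
  have h1 : (∑ k ∈ Finset.range n, a (p * (k + 1)) * τ (n - (k + 1))) + a 0 * τ n - τ n =
      (∑ k ∈ Finset.range n, a (p * (k + 1)) * τ (n - (k + 1))) + (a 0 - 1) * τ n := by ring
  rw [h1]
  refine dvd_add (Finset.dvd_sum fun k _ => ?_) (Dvd.dvd.mul_right ha0 _)
  exact Dvd.dvd.mul_right (hak _ (Nat.mul_pos hp (Nat.succ_pos k))) _

/-- `∑_{i+j=p} a_i τ'_j = a_0` where `τ'_j = τ_{j/p}` if `p ∣ j` and `0` otherwise. -/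
theorem sum_antidiagonal_prime {p : ℕ} (hp : 0 < p) (a τ : ℕ → ℤ) (hτ0 : τ 0 = 0)
    (hτ1 : τ 1 = 1) :
    ∑ x ∈ Finset.HasAntidiagonal.antidiagonal p, a x.1 * (if p ∣ x.2 then τ (x.2 / p) else 0) = a 0 := by
  rw [Finset.Nat.sum_antidiagonal_eq_sum_range_succ
    (fun i j => a i * (if p ∣ j then τ (j / p) else 0)) p]
  rw [Finset.sum_eq_single 0]
  · simp [Nat.div_self hp, hτ1]
  · intro k hk hk0
    have hkp : k ≤ p := Nat.lt_succ_iff.mp (Finset.mem_range.mp hk)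
    by_cases hdvd : p ∣ p - k
    · have h0 : p - k = 0 := Nat.eq_zero_of_dvd_of_lt hdvd (by omega)
      simp [h0, hτ0]
    · simp [hdvd]
  · intro h
    exact absurd (Finset.mem_range.mpr (Nat.succ_pos p)) h

/-- `∑_{i+j=1} a_i τ'_j = 0` (`p ≥ 2`). -/
theorem sum_antidiagonal_one {p : ℕ} (hp : 2 ≤ p) (a τ : ℕ → ℤ) (hτ0 : τ 0 = 0) :
    ∑ x ∈ Finset.HasAntidiagonal.antidiagonal 1, a x.1 * (if p ∣ x.2 then τ (x.2 / p) else 0) = 0 := by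
  have h1 : ¬ p ∣ 1 := by
    intro h
    have := Nat.le_of_dvd one_pos h
    omega
  simp [Finset.Nat.antidiagonal_succ, h1, hτ0]

/-- The arithmetic core of Lemma A. -/
theorem arith {p : ℕ} (hp : p.Prime) {M : ℕ} (hMp : Nat.Coprime M p) (a τ : ℕ → ℤ)
    (hτ0 : τ 0 = 0) (hτ1 : τ 1 = 1)
    (ha0 : (M : ℤ) ∣ a 0 - 1) (hak : ∀ k : ℕ, 1 ≤ k → (M : ℤ) ∣ a k)
    (hI : ∀ N : ℕ, (p : ℤ) ^ 12 * ∑ x ∈ Finset.HasAntidiagonal.antidiagonal N,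
        a x.1 * (if p ∣ x.2 then τ (x.2 / p) else 0) =
      ∑ x ∈ Finset.HasAntidiagonal.antidiagonal (p * N), a (p * x.1) * τ x.2)
    (hτp : τ (p ^ 2) = τ p ^ 2 - (p : ℤ) ^ 11) :
    M ∣ p + 1 := by
  -- `N = 1`: `τ p ≡ 0`
  have h1 : (M : ℤ) ∣ τ p := by
    have hI1 := hI 1
    rw [sum_antidiagonal_one hp.two_le a τ hτ0, mul_zero, mul_one] at hI1
    have h := sum_antidiagonal_modEq hp.pos a τ ha0 hak p
    rw [← hI1, zero_sub] at h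
    exact (dvd_neg).mp h
  -- `N = p`: `τ (p²) ≡ p¹²`
  have h2 : (M : ℤ) ∣ (p : ℤ) ^ 12 - τ (p ^ 2) := by
    have hIp := hI p
    rw [sum_antidiagonal_prime hp.pos a τ hτ0 hτ1] at hIp
    have h := sum_antidiagonal_modEq hp.pos a τ ha0 hak (p * p)
    rw [← hIp, ← pow_two] at h
    have h3 : (p : ℤ) ^ 12 - τ (p ^ 2) =
        ((p : ℤ) ^ 12 * a 0 - τ (p ^ 2)) - (p : ℤ) ^ 12 * (a 0 - 1) := by ring
    rw [h3]
    exact dvd_sub h (Dvd.dvd.mul_left ha0 _)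
  -- conclusion
  have h4 : (M : ℤ) ∣ (p : ℤ) ^ 11 * ((p : ℤ) + 1) := by
    have h5 : (p : ℤ) ^ 11 * ((p : ℤ) + 1) = ((p : ℤ) ^ 12 - τ (p ^ 2)) + τ p * τ p := by
      rw [hτp]; ring
    rw [h5]
    exact dvd_add h2 (Dvd.dvd.mul_right h1 _)
  have h6 : M ∣ p ^ 11 * (p + 1) := by
    have : ((M : ℕ) : ℤ) ∣ ((p ^ 11 * (p + 1) : ℕ) : ℤ) := by
      push_cast
      exact h4
    exact Int.natCast_dvd_natCast.mp this
  exact (Nat.Coprime.pow_right 11 hMp).dvd_of_dvd_mul_left h6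

end Fermat.Agent.S16.UB.LemmaAAux
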