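import Mathlib
import Fermat.Agent.S16.MF.Exp

/-!
# S16 / UB / Lemma A: `q`-expansion of the trace `F + Σ_{j<p} F ∣ S T^j` (owner helper14)

If `F ∣ S` has the expansion `B` in `x = e^{2πiz/p}` and `e = F + Σ_{j<p} F ∣ S T^j` is a level-one
modular form, then `a_N(e) = a_N(F) + p · B_{pN}`.
-/

set_option autoImplicit false

open UpperHalfPlane ModularForm CongruenceSubgroup Complex Function
open scoped MatrixGroups ModularForm Real

namespace Fermat.Agent.S16.UB.LemmaAAux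

open Fermat.Agent.S23 (Gam)
open Fermat.Agent.S16

/-- Slash by `S * T^j` is slash by `S` followed by the translation `z ↦ z + j`. -/
theorem slash_S_mul_T_pow (G : ℍ → ℂ) (k : ℤ) (j : ℕ) (z w : ℍ)
    (hw : (w : ℂ) = (z : ℂ) + ((j : ℤ) : ℂ)) :
    (G ∣[k] (ModularGroup.S * ModularGroup.T ^ j)) z = (G ∣[k] ModularGroup.S) w := by
  rw [SlashAction.slash_mul, SL_slash_apply]
  have h1 : (ModularGroup.T ^ j) • z = w := by
    apply UpperHalfPlane.ext
    rw [hw, ← zpow_natCast, ModularGroup.coe_T_zpow_smul_eq]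
  have h2 : denom ((ModularGroup.T ^ j : SL(2, ℤ)) : GL (Fin 2) ℝ) z = 1 := by
    have h3 : (ModularGroup.T ^ j : SL(2, ℤ)) = ModularGroup.T ^ (j : ℤ) := (zpow_natCast _ _).symm
    rw [h3]
    have hT := ModularGroup.coe_T_zpow (j : ℤ)
    simp only [denom]
    have h10 : (((ModularGroup.T ^ (j : ℤ) : SL(2, ℤ)) : GL (Fin 2) ℝ) 1 0 : ℝ) =
        (((ModularGroup.T ^ (j : ℤ) : SL(2, ℤ)) 1 0 : ℤ) : ℝ) := rfl
    have h11 : (((ModularGroup.T ^ (j : ℤ) : SL(2, ℤ)) : GL (Fin 2) ℝ) 1 1 : ℝ) =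
        (((ModularGroup.T ^ (j : ℤ) : SL(2, ℤ)) 1 1 : ℤ) : ℝ) := rfl
    rw [h10, h11]
    have e10 : (ModularGroup.T ^ (j : ℤ) : SL(2, ℤ)) 1 0 = 0 := by
      show (ModularGroup.T ^ (j : ℤ) : SL(2, ℤ)).1 1 0 = 0
      rw [hT]; rfl
    have e11 : (ModularGroup.T ^ (j : ℤ) : SL(2, ℤ)) 1 1 = 1 := by
      show (ModularGroup.T ^ (j : ℤ) : SL(2, ℤ)).1 1 1 = 1
      rw [hT]; rfl
    rw [e10, e11]
    simp
  rw [h1, h2]
  simp

/-- The `q`-expansion of the trace. -/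
theorem coeff_trace {p : ℕ} [NeZero p] {k : ℤ} (F : ModularForm (Gam p) k) (B : PowerSeries ℂ)
    (hB : HasExp p ((F : ℍ → ℂ) ∣[k] ModularGroup.S) B) (e : ModularForm 𝒮ℒ k)
    (he : ∀ z : ℍ, e z = F z + ∑ j ∈ Finset.range p,
      ((F : ℍ → ℂ) ∣[k] (ModularGroup.S * ModularGroup.T ^ j)) z) (N : ℕ) :
    (qExpansion 1 e).coeff N = (qExpansion 1 F).coeff N + (p : ℂ) * B.coeff (p * N) := by
  have hp0 : p ≠ 0 := NeZero.ne p
  -- expansions of the translates
  have h1 : ∀ j ∈ Finset.range p, HasExp p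
      ((F : ℍ → ℂ) ∣[k] (ModularGroup.S * ModularGroup.T ^ j))
      (PowerSeries.rescale (Complex.exp (2 * (π : ℂ) * Complex.I * ((j : ℤ) : ℂ) / (p : ℂ))) B) :=
    fun j _ => hB.comp_add (j : ℤ) fun z w hw => slash_S_mul_T_pow _ k j z w hw
  have h2 := HasExp.sum (Finset.range p) h1
  -- expansion of `F`
  have h3 : HasExp p (F : ℍ → ℂ) (PowerSeries.expand p hp0 (qExpansion 1 F)) := by
    have := (hasExp_gam F).expand_h p hp0
    rwa [one_mul] at this
  -- expansion of `e`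
  have h4 : HasExp p (e : ℍ → ℂ) (PowerSeries.expand p hp0 (qExpansion 1 F) +
      ∑ j ∈ Finset.range p,
        PowerSeries.rescale (Complex.exp (2 * (π : ℂ) * Complex.I * ((j : ℤ) : ℂ) / (p : ℂ))) B) := by
    refine (h3.add h2).congr fun z => ?_
    rw [he z]
    simp [Finset.sum_apply]
  have h5 := HasExp.eq_expand hp0 (hasExp_levelOne e) h4
  have h6 := congrArg (PowerSeries.coeff (p * N)) h5
  rw [PowerSeries.coeff_expand_mul, map_add, PowerSeries.coeff_expand_mul, map_sum] at h6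
  rw [← h6]
  congr 1
  have h7 : ∀ j ∈ Finset.range p, PowerSeries.coeff (p * N)
      (PowerSeries.rescale (Complex.exp (2 * (π : ℂ) * Complex.I * ((j : ℤ) : ℂ) / (p : ℂ))) B) =
      B.coeff (p * N) := by
    intro j _
    rw [PowerSeries.coeff_rescale]
    have h8 : Complex.exp (2 * (π : ℂ) * Complex.I * ((j : ℤ) : ℂ) / (p : ℂ)) ^ (p * N) = 1 := by
      rw [← Complex.exp_nat_mul]
      have hpC : (p : ℂ) ≠ 0 := Nat.cast_ne_zero.mpr hp0
      have h9 : ((p * N : ℕ) : ℂ) * (2 * (π : ℂ) * Complex.I * ((j : ℤ) : ℂ) / (p : ℂ)) =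
          ((N * j : ℕ) : ℂ) * (2 * (π : ℂ) * Complex.I) := by
        push_cast
        field_simp
      rw [h9]
      exact Complex.exp_nat_mul_two_pi_mul_I _
    rw [h8, one_mul]
  rw [Finset.sum_congr rfl h7, Finset.sum_const, Finset.card_range, nsmul_eq_mul]

end Fermat.Agent.S16.UB.LemmaAAux
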