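import Mathlib
import Fermat.Agent.S16.UB.Defs
import Fermat.Agent.S16.UBA.Arith
import Fermat.Agent.S16.UBA.Trace
import Fermat.Agent.S16.LV1.Iface
import Fermat.Agent.S16.COS.Iface
import Fermat.Agent.S16.B1.Iface
import Fermat.Agent.S16.VP.Iface

/-!
# S16 / UB / Lemma A: assembly (owner helper14)

`ℓ ≠ p` prime, `f ≡ 1 mod ℓ^a` (`f ∈ M₂(Γ₀(p))`)  ⟹  `ℓ^a ∣ p + 1`.

* `tau_sq`: `τ(p²) = τ(p)² - p¹¹` (trace of `Δ(pz)` to level one is a multiple of `Δ`);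
* `trace_identity`: `p¹² Σ_{i+j=N} a_i τ'_j = Σ_{i+j=pN} a_{pi} τ_j` (trace of `f · Δ(pz)` to level
  one lies in `S₁₄(SL₂ℤ) = 0`);
* `lemmaA'`: the statement, from the arithmetic core `arith`.
-/

set_option autoImplicit false

open UpperHalfPlane ModularForm CongruenceSubgroup Complex Function Finset
open scoped MatrixGroups ModularForm Real

namespace Fermat.Agent.S16.UB.LemmaAAux

open Fermat.Agent.S23 (Gam)
open Fermat.Agent.S16

/-- `Δ` as a level-one modular form. -/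
noncomputable def DeltaM : ModularForm 𝒮ℒ 12 := CuspForm.toModularFormₗ CuspForm.discriminant

theorem DeltaM_apply (z : ℍ) : DeltaM z = ModularForm.discriminant z := rfl

theorem coeff_DeltaM (n : ℕ) : (qExpansion 1 DeltaM).coeff n = (LV1.tau n : ℂ) :=
  LV1.discriminant_coeff n

/-- `Δ(p z)` as a modular form of level `Γ₀(p)`. -/
noncomputable def DeltaP (p : ℕ) : ModularForm (Gam p) 12 := raiseOne p DeltaM

theorem coeff_DeltaP {p : ℕ} (hp : p ≠ 0) (n : ℕ) :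
    (qExpansion 1 (DeltaP p)).coeff n = if p ∣ n then (LV1.tau (n / p) : ℂ) else 0 := by
  rw [DeltaP, qExpansion_raiseOne hp, PowerSeries.coeff_expand]
  split_ifs
  · exact coeff_DeltaM _
  · rfl

/-- `(Δ(p·) ∣ S)(z) = p⁻¹² Δ(z / p)`. -/
theorem DeltaP_slash_S {p : ℕ} (hp : p ≠ 0) (z w : ℍ) (hw : (w : ℂ) = (z : ℂ) / (p : ℂ)) :
    ((DeltaP p : ℍ → ℂ) ∣[(12 : ℤ)] ModularGroup.S) z = ((p : ℂ)⁻¹ ^ 12) * DeltaM w := by
  have hpC : (p : ℂ) ≠ 0 := Nat.cast_ne_zero.mpr hp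
  have hz : (z : ℂ) ≠ 0 := ne_zero z
  have hw0 : (w : ℂ) ≠ 0 := ne_zero w
  rw [SlashInvariantForm.slash_S_apply]
  -- the point `-1/w = p * (-1/z)`
  have h1 : DeltaP p (UpperHalfPlane.mk _ z.im_inv_neg_coe_pos) =
      DeltaM (UpperHalfPlane.mk _ w.im_inv_neg_coe_pos) := by
    apply raiseOne_apply hp DeltaM
    simp only [hw]
    field_simp
  have h2 : DeltaM (UpperHalfPlane.mk _ w.im_inv_neg_coe_pos) * (w : ℂ) ^ (-(12 : ℤ)) = DeltaM w := by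
    have h3 := congrFun ModularForm.discriminant_S_invariant w
    rw [SlashInvariantForm.slash_S_apply] at h3
    exact h3
  have h4 : DeltaM (UpperHalfPlane.mk _ w.im_inv_neg_coe_pos) = DeltaM w * (w : ℂ) ^ (12 : ℕ) := by
    rw [← h2, mul_assoc, zpow_neg, ← zpow_natCast, show ((12 : ℕ) : ℤ) = 12 from rfl,
      inv_mul_cancel₀ (zpow_ne_zero _ hw0), mul_one]
  have h5 : (z : ℂ) ^ (12 : ℤ) = (z : ℂ) ^ (12 : ℕ) := zpow_ofNat _ _
  rw [h1, h4, hw, zpow_neg, h5]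
  field_simp

/-- The expansion of `Δ(p·) ∣ S` in `x = e^{2πiz/p}`. -/
theorem hasExp_DeltaP_slash_S {p : ℕ} (hp : p ≠ 0) :
    HasExp p ((DeltaP p : ℍ → ℂ) ∣[(12 : ℤ)] ModularGroup.S)
      (((p : ℂ)⁻¹ ^ 12) • qExpansion 1 DeltaM) := by
  have h := ((hasExp_levelOne DeltaM).smul ((p : ℂ)⁻¹ ^ 12)).comp_div p hp
    (G' := (DeltaP p : ℍ → ℂ) ∣[(12 : ℤ)] ModularGroup.S)
    (fun z w hw => by rw [DeltaP_slash_S hp z w hw]; rfl)
  rwa [one_mul] at h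

/-- `τ(p²) = τ(p)² - p¹¹`. -/
theorem tau_sq {p : ℕ} (hp : p.Prime) :
    LV1.tau (p ^ 2) = LV1.tau p ^ 2 - (p : ℤ) ^ 11 := by
  have : NeZero p := ⟨hp.ne_zero⟩
  have hp0 : p ≠ 0 := hp.ne_zero
  have hpC : (p : ℂ) ≠ 0 := Nat.cast_ne_zero.mpr hp0
  obtain ⟨e, he⟩ := COS.exists_trace hp (DeltaP p)
  have hc : ∀ N : ℕ, (qExpansion 1 e).coeff N =
      (if p ∣ N then (LV1.tau (N / p) : ℂ) else 0) +
        (p : ℂ) * (((p : ℂ)⁻¹ ^ 12) * (LV1.tau (p * N) : ℂ)) := by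
    intro N
    rw [coeff_trace (DeltaP p) _ (hasExp_DeltaP_slash_S hp0) e he N, coeff_DeltaP hp0,
      PowerSeries.coeff_smul, coeff_DeltaM, smul_eq_mul]
  have h0 : (qExpansion 1 e).coeff 0 = 0 := by
    rw [hc 0]
    simp [LV1.tau_zero]
  have h12 := (LV1.weight_twelve_eq rfl e h0).2 p
  have h1 : ¬ p ∣ 1 := by
    intro h
    have := Nat.le_of_dvd one_pos h
    have := hp.two_le
    omega
  rw [hc p, hc 1, if_pos dvd_rfl, if_neg h1, Nat.div_self hp.pos, LV1.tau_one, mul_one,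
    ← pow_two] at h12
  have h2 : ((LV1.tau (p ^ 2) : ℤ) : ℂ) = ((LV1.tau p ^ 2 - (p : ℤ) ^ 11 : ℤ) : ℂ) := by
    push_cast
    have h3 : ((1 : ℤ) : ℂ) + (p : ℂ) * ((p : ℂ)⁻¹ ^ 12 * (LV1.tau (p ^ 2) : ℂ)) =
        (0 + (p : ℂ) * ((p : ℂ)⁻¹ ^ 12 * (LV1.tau p : ℂ))) * (LV1.tau p : ℂ) := h12
    field_simp at h3
    linear_combination h3
  exact_mod_cast h2

/-- The trace identity for `f · Δ(pz)`. -/
theorem trace_identity {p : ℕ} (hp : p.Prime) (f : ModularForm (Gam p) 2) (a : ℕ → ℤ)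
    (ha : ∀ k : ℕ, (qExpansion 1 f).coeff k = (a k : ℂ)) (N : ℕ) :
    (p : ℤ) ^ 12 * ∑ x ∈ antidiagonal N,
        a x.1 * (if p ∣ x.2 then LV1.tau (x.2 / p) else 0) =
      ∑ x ∈ antidiagonal (p * N), a (p * x.1) * LV1.tau x.2 := by
  have : NeZero p := ⟨hp.ne_zero⟩
  have hp0 : p ≠ 0 := hp.ne_zero
  have hpC : (p : ℂ) ≠ 0 := Nat.cast_ne_zero.mpr hp0
  set F : ModularForm (Gam p) (2 + 12) := f.mul (DeltaP p) with hF
  have hFcoe : (F : ℍ → ℂ) = (f : ℍ → ℂ) * (DeltaP p : ℍ → ℂ) := rfl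
  obtain ⟨e, he⟩ := COS.exists_trace hp F
  -- expansion of `F ∣ S`
  have hS : HasExp p ((F : ℍ → ℂ) ∣[((2 : ℤ) + 12)] ModularGroup.S)
      ((PowerSeries.mk fun k => -(1 / (p : ℂ)) * (qExpansion 1 f).coeff (p * k)) *
        (((p : ℂ)⁻¹ ^ 12) • qExpansion 1 DeltaM)) := by
    rw [hFcoe, ModularForm.mul_slash_SL2]
    exact (B1.hasExp_S hp f).mul (hasExp_DeltaP_slash_S hp0)
  -- the `q`-expansion of `F`
  have hqF : qExpansion 1 F = qExpansion 1 f * qExpansion 1 (DeltaP p) :=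
    HasExp.eq_qExpansion F (((hasExp_gam f).mul (hasExp_gam (DeltaP p))).congr fun z => rfl)
  have hc : ∀ M : ℕ, (qExpansion 1 e).coeff M =
      (qExpansion 1 f * qExpansion 1 (DeltaP p)).coeff M + (p : ℂ) *
        ((PowerSeries.mk fun k => -(1 / (p : ℂ)) * (qExpansion 1 f).coeff (p * k)) *
          (((p : ℂ)⁻¹ ^ 12) • qExpansion 1 DeltaM)).coeff (p * M) := by
    intro M
    rw [coeff_trace F _ hS e he M, hqF]
  have h0 : (qExpansion 1 e).coeff 0 = 0 := by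
    rw [hc 0, Nat.mul_zero, PowerSeries.coeff_mul, PowerSeries.coeff_mul]
    simp [coeff_DeltaP hp0, coeff_DeltaM, LV1.tau_zero]
  have hzero : e = 0 := LV1.weight_fourteen_eq_zero (by norm_num) e h0
  have hN := hc N
  rw [hzero] at hN
  have hz : (qExpansion 1 ((0 : ModularForm 𝒮ℒ ((2 : ℤ) + 12)) : ℍ → ℂ)).coeff N = 0 := by
    rw [FunLike.coe_zero, UpperHalfPlane.qExpansion_zero]
    simp
  rw [hz, PowerSeries.coeff_mul, PowerSeries.coeff_mul] at hN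
  have h1 : ∑ x ∈ antidiagonal N, (qExpansion 1 f).coeff x.1 * (qExpansion 1 (DeltaP p)).coeff x.2 =
      ((∑ x ∈ antidiagonal N, a x.1 * (if p ∣ x.2 then LV1.tau (x.2 / p) else 0) : ℤ) : ℂ) := by
    push_cast
    refine Finset.sum_congr rfl fun x _ => ?_
    rw [ha, coeff_DeltaP hp0]
  have h2 : ∑ x ∈ antidiagonal (p * N),
      (PowerSeries.mk fun k => -(1 / (p : ℂ)) * (qExpansion 1 f).coeff (p * k)).coeff x.1 *
        (((p : ℂ)⁻¹ ^ 12) • qExpansion 1 DeltaM).coeff x.2 =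
      -(1 / (p : ℂ)) * ((p : ℂ)⁻¹ ^ 12) *
        ((∑ x ∈ antidiagonal (p * N), a (p * x.1) * LV1.tau x.2 : ℤ) : ℂ) := by
    push_cast
    rw [Finset.mul_sum]
    refine Finset.sum_congr rfl fun x _ => ?_
    rw [PowerSeries.coeff_mk, PowerSeries.coeff_smul, coeff_DeltaM, ha, smul_eq_mul]
    ring
  rw [h1, h2] at hN
  have h3 : (((p : ℤ) ^ 12 * ∑ x ∈ antidiagonal N,
      a x.1 * (if p ∣ x.2 then LV1.tau (x.2 / p) else 0) : ℤ) : ℂ) =
      ((∑ x ∈ antidiagonal (p * N), a (p * x.1) * LV1.tau x.2 : ℤ) : ℂ) := by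
    rw [Int.cast_mul, Int.cast_pow, Int.cast_natCast]
    field_simp at hN
    linear_combination (-1 : ℂ) * hN
  exact_mod_cast h3

/-- Lemma A. -/
theorem lemmaA' {p : ℕ} (hp : p.Prime) {ℓ a : ℕ} (hℓ : ℓ.Prime) (hℓp : ℓ ≠ p)
    (f : ModularForm (Gamma0 p) 2) (hf : CongOne f (ℓ ^ a)) : ℓ ^ a ∣ p + 1 := by
  obtain ⟨c, hc, hc0, hck⟩ := hf
  have hcop : Nat.Coprime (ℓ ^ a) p :=
    Nat.Coprime.pow_left a ((Nat.coprime_primes hℓ hp).mpr hℓp)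
  exact arith hp hcop c LV1.tau LV1.tau_zero LV1.tau_one hc0 hck
    (fun N => trace_identity hp f c hc N) (tau_sq hp)

end Fermat.Agent.S16.UB.LemmaAAux
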