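import Mathlib
import Fermat.Agent.S23.Defs
import Fermat.Agent.S23.Prim
import Fermat.Agent.S16.MF.Exp

/-!
# S16 / UBA / RaiseAlt (helper14): `g(p z)` has level `Γ₀(p)` if `g` has level one

Stand-alone proofs (no dependence on `VP/Iface`) of the two `VP` statements used by Lemma A:
`exists_raiseOne` and the `q`-expansion formula, in a form that can be used to fill the
stubs in `VP/Iface.lean`.
-/

set_option autoImplicit false

open UpperHalfPlane ModularForm CongruenceSubgroup Complex Function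
open scoped MatrixGroups ModularForm Real Manifold

namespace Fermat.Agent.S16.UB.LemmaAAux.RaiseAlt

open Fermat.Agent.S23 (Gam)
open Fermat.Agent.S23.PrimAux

/-- `g ∣[k] diag(p,1)` is invariant under `Γ₀(p)` for `g` of level one. -/
theorem slash_heckeDiag_slash {k : ℤ} (p : ℕ) [NeZero p] (g : ModularForm 𝒮ℒ k)
    (γ : GL (Fin 2) ℝ) (hγ : γ ∈ Gam p) :
    (⇑g ∣[k] heckeDiagMatrix p) ∣[k] γ = ⇑g ∣[k] heckeDiagMatrix p := by
  obtain ⟨g', hmul⟩ := heckeDiagMatrix_mul_of_mem p hγ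
  rw [← SlashAction.slash_mul, hmul, SlashAction.slash_mul,
    SlashInvariantFormClass.slash_action_eq g _ (MonoidHom.mem_range.mpr ⟨g', rfl⟩)]

/-- The modular form `g ∣[k] diag(p,1)` of level `Γ₀(p)`. -/
noncomputable def raiseForm0 {k : ℤ} (p : ℕ) [NeZero p] (g : ModularForm 𝒮ℒ k) :
    ModularForm (Gam p) k where
  toFun := ⇑g ∣[k] heckeDiagMatrix p
  slash_action_eq' γ hγ := slash_heckeDiag_slash p g γ hγ
  holo' := (ModularFormClass.holo g).slash k _
  bdd_at_cusps' hc :=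
    (ModularForm.translate g (heckeDiagMatrix p)).bdd_at_cusps' (hc.mono (Gam_le_conj p))

/-- `g(p z)` is a modular form of level `Γ₀(p)` if `g` has level one. -/
theorem exists_raiseOne {k : ℤ} {p : ℕ} (hp : p ≠ 0) (g : ModularForm 𝒮ℒ k) :
    ∃ R : ModularForm (Gam p) k, ∀ z w : ℍ, (w : ℂ) = p * z → R z = g w := by
  haveI : NeZero p := ⟨hp⟩
  have hpC : (p : ℂ) ≠ 0 := Nat.cast_ne_zero.mpr hp
  refine ⟨((p : ℂ) ^ (k - 1))⁻¹ • raiseForm0 p g, fun z w hw => ?_⟩
  have hw' : w = heckeDiagMatrix p • z := by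
    apply UpperHalfPlane.ext
    rw [hw, ModularForm.coe_heckeDiagMatrix_smul hp z]
  change ((p : ℂ) ^ (k - 1))⁻¹ • ((⇑g ∣[k] heckeDiagMatrix p) z) = g w
  rw [slash_heckeDiagMatrix_apply k hp, smul_eq_mul, ← mul_assoc,
    inv_mul_cancel₀ (zpow_ne_zero _ hpC), one_mul, hw']

/-- The `q`-expansion of any form `R` of level `Γ₀(p)` with `R z = g (p z)`, `g` of level one. -/
theorem qExpansion_of_apply {k : ℤ} {p : ℕ} (hp : p ≠ 0) (g : ModularForm 𝒮ℒ k)
    (R : ModularForm (Gam p) k) (hR : ∀ z w : ℍ, (w : ℂ) = p * z → R z = g w) :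
    qExpansion 1 R = PowerSeries.expand p hp (qExpansion 1 g) := by
  haveI : NeZero p := ⟨hp⟩
  exact HasExp.eq_qExpansion R ((hasExp_levelOne g).comp_mul p hp hR)

end Fermat.Agent.S16.UB.LemmaAAux.RaiseAlt
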