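import Mathlib
import Fermat.Agent.S23.Defs
import Fermat.Agent.S23.Prim
import Fermat.Agent.S16.MF.Exp

/-!
# S16 / UBA / RaiseAlt2 (helper14): `g(p z)` has level `Γ₀(M p)` if `g` has level `Γ₀(M)`;
inclusion of levels.  Stand-alone proofs (no dependence on `VP/Iface`).
-/

set_option autoImplicit false

open UpperHalfPlane ModularForm CongruenceSubgroup Complex Function
open scoped MatrixGroups ModularForm Real Manifold

namespace Fermat.Agent.S16.UB.LemmaAAux.RaiseAlt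

open Fermat.Agent.S23 (Gam)
open Fermat.Agent.S23.PrimAux
open Matrix.SpecialLinearGroup
open scoped Pointwise

/-- `diag(p,1) * [[a,b],[p e,d]] = [[a,p b],[e,d]] * diag(p,1)`, with the lower left entry
of the new matrix exposed. -/
theorem heckeDiagMatrix_mul' {p : ℕ} (hp : p ≠ 0) (g : SL(2, ℤ)) (e : ℤ)
    (he : g 1 0 = p * e) :
    ∃ g' : SL(2, ℤ), g' 1 0 = e ∧
      heckeDiagMatrix p * mapGL ℝ g = mapGL ℝ g' * heckeDiagMatrix p := by
  have hdet := det_eq g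
  refine ⟨⟨!![g 0 0, p * g 0 1; e, g 1 1], ?_⟩, rfl, ?_⟩
  · rw [Matrix.det_fin_two_of]
    linear_combination hdet + (g 0 1) * he
  · ext i j
    fin_cases i <;> fin_cases j <;>
      simp [hp, Matrix.mul_apply, Fin.sum_univ_two]
    all_goals first
      | (have := congrArg (Int.cast : ℤ → ℝ) he; push_cast at this ⊢; linear_combination this)
      | (have := congrArg (Int.cast : ℤ → ℝ) he; push_cast at this ⊢; linear_combination -this)
      | ring1

/-- For `γ ∈ Γ₀(M p)` there is `γ' ∈ Γ₀(M)` with `diag(p,1) * γ = γ' * diag(p,1)`. -/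
theorem heckeDiagMatrix_mul_of_mem' (M : ℕ) {p : ℕ} (hp : p ≠ 0) {γ : GL (Fin 2) ℝ}
    (hγ : γ ∈ Gam (M * p)) :
    ∃ γ' ∈ Gam M, heckeDiagMatrix p * γ = γ' * heckeDiagMatrix p := by
  obtain ⟨g, hg, rfl⟩ := hγ
  obtain ⟨e, he⟩ : ((M * p : ℕ) : ℤ) ∣ g 1 0 :=
    (ZMod.intCast_zmod_eq_zero_iff_dvd _ _).mp (CongruenceSubgroup.Gamma0_mem.mp hg)
  have he' : g 1 0 = p * (M * e) := by rw [he]; push_cast; ring
  obtain ⟨g', hg'10, hmul⟩ := heckeDiagMatrix_mul' hp g (M * e) he'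
  refine ⟨mapGL ℝ g', ⟨g', ?_, rfl⟩, hmul⟩
  rw [SetLike.mem_coe, CongruenceSubgroup.Gamma0_mem, hg'10]
  push_cast
  simp

/-- `g ∣[k] diag(p,1)` is invariant under `Γ₀(M p)` for `g` of level `Γ₀(M)`. -/
theorem slash_heckeDiag_slash' {k : ℤ} (M : ℕ) {p : ℕ} (hp : p ≠ 0) (g : ModularForm (Gam M) k)
    (γ : GL (Fin 2) ℝ) (hγ : γ ∈ Gam (M * p)) :
    (⇑g ∣[k] heckeDiagMatrix p) ∣[k] γ = ⇑g ∣[k] heckeDiagMatrix p := by
  obtain ⟨γ', hγ', hmul⟩ := heckeDiagMatrix_mul_of_mem' M hp hγ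
  rw [← SlashAction.slash_mul, hmul, SlashAction.slash_mul,
    SlashInvariantFormClass.slash_action_eq g _ hγ']

/-- `Γ₀(M p)` is contained in the conjugate of `Γ₀(M)` by `diag(p,1)`. -/
theorem Gam_le_conj' (M : ℕ) {p : ℕ} (hp : p ≠ 0) :
    Gam (M * p) ≤ (ConjAct.toConjAct (heckeDiagMatrix p)⁻¹ • Gam M : Subgroup (GL (Fin 2) ℝ)) := by
  intro γ hγ
  obtain ⟨γ', hγ', hmul⟩ := heckeDiagMatrix_mul_of_mem' M hp hγ
  rw [map_inv, Subgroup.mem_inv_pointwise_smul_iff, ConjAct.toConjAct_smul, hmul,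
    mul_inv_cancel_right]
  exact hγ'

/-- The modular form `g ∣[k] diag(p,1)` of level `Γ₀(M p)`. -/
noncomputable def raiseFormM {k : ℤ} (M : ℕ) {p : ℕ} (hp : p ≠ 0) (g : ModularForm (Gam M) k) :
    ModularForm (Gam (M * p)) k where
  toFun := ⇑g ∣[k] heckeDiagMatrix p
  slash_action_eq' γ hγ := slash_heckeDiag_slash' M hp g γ hγ
  holo' := (ModularFormClass.holo g).slash k _
  bdd_at_cusps' hc :=
    (ModularForm.translate g (heckeDiagMatrix p)).bdd_at_cusps' (hc.mono (Gam_le_conj' M hp))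

/-- `g(p z)` is a modular form of level `Γ₀(M p)` if `g` is one of level `Γ₀(M)`. -/
theorem exists_raise {M : ℕ} {k : ℤ} {p : ℕ} (hp : p ≠ 0) (g : ModularForm (Gam M) k) :
    ∃ R : ModularForm (Gam (M * p)) k, ∀ z w : ℍ, (w : ℂ) = p * z → R z = g w := by
  have hpC : (p : ℂ) ≠ 0 := Nat.cast_ne_zero.mpr hp
  refine ⟨((p : ℂ) ^ (k - 1))⁻¹ • raiseFormM M hp g, fun z w hw => ?_⟩
  have hw' : w = heckeDiagMatrix p • z := by
    apply UpperHalfPlane.ext
    rw [hw, ModularForm.coe_heckeDiagMatrix_smul hp z]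
  change ((p : ℂ) ^ (k - 1))⁻¹ • ((⇑g ∣[k] heckeDiagMatrix p) z) = g w
  rw [slash_heckeDiagMatrix_apply k hp, smul_eq_mul, ← mul_assoc,
    inv_mul_cancel₀ (zpow_ne_zero _ hpC), one_mul, hw']

/-- The `q`-expansion of any form `R` of level `Γ₀(M p)` with `R z = g (p z)`. -/
theorem qExpansion_of_apply' {M : ℕ} [NeZero M] {k : ℤ} {p : ℕ} (hp : p ≠ 0)
    (g : ModularForm (Gam M) k)
    (R : ModularForm (Gam (M * p)) k) (hR : ∀ z w : ℍ, (w : ℂ) = p * z → R z = g w) :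
    qExpansion 1 R = PowerSeries.expand p hp (qExpansion 1 g) := by
  have : NeZero (M * p) := ⟨Nat.mul_ne_zero (NeZero.ne M) hp⟩
  exact HasExp.eq_qExpansion R ((hasExp_gam g).comp_mul p hp hR)

/-- `Γ₀(d M) ≤ Γ₀(M)`. -/
theorem Gam_mul_le (d M : ℕ) : Gam (d * M) ≤ Gam M := by
  rintro γ ⟨g, hg, rfl⟩
  refine ⟨g, ?_, rfl⟩
  rw [SetLike.mem_coe, CongruenceSubgroup.Gamma0_mem] at hg ⊢
  rw [ZMod.intCast_zmod_eq_zero_iff_dvd] at hg ⊢
  exact dvd_trans (by push_cast; exact Dvd.intro_left _ rfl) hg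

/-- A form of level `Γ₀(M)` is a form of level `Γ₀(d M)`. -/
theorem exists_incl (d : ℕ) {M : ℕ} {k : ℤ} (f : ModularForm (Gam M) k) :
    ∃ F : ModularForm (Gam (d * M)) k, ∀ z : ℍ, F z = f z := by
  refine ⟨{ toFun := f
            slash_action_eq' := fun γ hγ =>
              SlashInvariantFormClass.slash_action_eq f γ (Gam_mul_le d M hγ)
            holo' := ModularFormClass.holo f
            bdd_at_cusps' := fun hc => f.bdd_at_cusps' (hc.mono (Gam_mul_le d M)) }, fun z => rfl⟩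

end Fermat.Agent.S16.UB.LemmaAAux.RaiseAlt
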